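/-
P-FF (S19, S32), architect helper72: ABSTRACT INTERFACES (Mathlib + two prelude files + H10.FF).

Blueprint: lead, findings #339; refinement: helper72, findings "P-FF ARCHITECTURE v1".

Notation: `A` a valuation subring of `ℚ̄` over `ℓ`, `D = A.decompositionSubgroup ℚ`,
`I = A.inertiaSubgroupIn ℚ`, `R = unrInt A = A ∩ ℚ̄^I` (the unramified integers).

Pipeline (all Prop-valued, provers land `theorem foo : <Name>Statement`):

  IsCoordDatum (formal coordinates on the kernel of reduction, group law approximable by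
      polynomials over `R`)                                   [geometry, FF-GEO]
    ==FF-C==>  IsUnrHopfOrder (an `R`-algebra of functions on `Z`, stable under `D`, closed
      under comultiplication)
    ==FF-D==>  H10.FF.IsConcreteHopfOrder (descent to `ℤ_(ℓ)`, uses FF-P = PlaceFacts)
    ==FF-CORE (helper10)==>  H10.FF.HasHopfModel = the existential of S19 / IsFlatAt.
-/
import Mathlib
import Fermat.Prelude.Def_GaloisRep_Flat
import Fermat.Prelude.Def_FLTPrelim_Ramification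
import Fermat.Agent.H10.FF.Interfaces

set_option autoImplicit false

noncomputable section

namespace Fermat.Agent.H72.FF

open Fermat.Agent.H10.FF

/-- `ℚ̄`. -/
abbrev Qb : Type := AlgebraicClosure ℚ

/-- The unramified integers `R = A ∩ ℚ̄^I`. -/
def unrInt (A : ValuationSubring Qb) : Subring Qb where
  carrier := {x | x ∈ A ∧ ∀ σ ∈ A.inertiaSubgroupIn ℚ, σ x = x}
  mul_mem' := by
    rintro a b ⟨ha, ha'⟩ ⟨hb, hb'⟩
    exact ⟨A.mul_mem _ _ ha hb, fun σ hσ => by rw [map_mul, ha' σ hσ, hb' σ hσ]⟩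
  one_mem' := ⟨A.one_mem, fun σ _ => map_one σ⟩
  add_mem' := by
    rintro a b ⟨ha, ha'⟩ ⟨hb, hb'⟩
    exact ⟨A.add_mem _ _ ha hb, fun σ hσ => by rw [map_add, ha' σ hσ, hb' σ hσ]⟩
  zero_mem' := ⟨A.zero_mem, fun σ _ => map_zero σ⟩
  neg_mem' := by
    rintro a ⟨ha, ha'⟩
    exact ⟨A.neg_mem _ ha, fun σ hσ => by rw [map_neg, ha' σ hσ]⟩

theorem mem_unrInt {A : ValuationSubring Qb} {x : Qb} :
    x ∈ unrInt A ↔ x ∈ A ∧ ∀ σ ∈ A.inertiaSubgroupIn ℚ, σ x = x := Iff.rfl

/-! ### FF-P : facts about the place `A` -/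

/-- (P1) the decomposition field is `ℓ`-adically approximated by `ℚ` (`e = f = 1`). -/
def PlaceDense (ℓ : ℕ) (A : ValuationSubring Qb) : Prop :=
  ∀ c : Qb, (∀ σ ∈ A.decompositionSubgroup ℚ, σ c = c) → ∀ M : ℕ,
    ∃ q : ℚ, ∃ a ∈ A, c - algebraMap ℚ Qb q = (ℓ : Qb) ^ M * a

/-- (P2) trace-dual bases for the unramified extensions: for every open subgroup `S` of `D`
containing `I` there are `θ_j, θ'_j ∈ A` fixed by `S` with
`∑_j θ'_j σ(θ_j) = [σ ∈ S]` for all `σ ∈ D`. -/
def PlaceUnrBasis (A : ValuationSubring Qb) : Prop :=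
  ∀ S : Subgroup GQ, A.inertiaSubgroupIn ℚ ≤ S → S ≤ A.decompositionSubgroup ℚ →
    (∃ E : IntermediateField ℚ Qb, FiniteDimensional ℚ E ∧
      ∀ σ ∈ A.decompositionSubgroup ℚ, (∀ x ∈ E, σ x = x) → σ ∈ S) →
    ∃ (n : ℕ) (θ θ' : Fin n → Qb),
      (∀ j, θ j ∈ A ∧ θ' j ∈ A) ∧
      (∀ j, ∀ s ∈ S, s (θ j) = θ j ∧ s (θ' j) = θ' j) ∧
      ∀ σ ∈ A.decompositionSubgroup ℚ, ∀ [Decidable (σ ∈ S)],
        ∑ j, θ' j * σ (θ j) = if σ ∈ S then 1 else 0

/-- The facts about the place used by the descent. -/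
structure PlaceFacts (ℓ : ℕ) (A : ValuationSubring Qb) : Prop where
  liesOver : A.LiesOverPrime ℓ
  dense : PlaceDense ℓ A
  unrBasis : PlaceUnrBasis A

/-- **FF-P.** Some place over `ℓ` has the two properties (in fact every place has them; the
prover may take `GaloisRep.padicPlace ℓ`, for which (P1) follows from the density of `ℚ` in
`ℚ_ℓ`). -/
def PlaceFactsStatement : Prop :=
  ∀ (ℓ : ℕ) [Fact ℓ.Prime], ∀ A : ValuationSubring Qb, A.LiesOverPrime ℓ → PlaceFacts ℓ A

/-! ### Formal coordinates -/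

/-- Smoothness of the Galois action on a subset: it is fixed by the Galois group of a number
field. -/
def IsSmoothOn {J : Type} [SMul GQ J] (Z : Set J) : Prop :=
  ∃ E : IntermediateField ℚ Qb, FiniteDimensional ℚ E ∧
    ∀ σ : GQ, (∀ x ∈ E, σ x = x) → ∀ P ∈ Z, σ • P = P

/-- **Formal coordinate datum** on a Galois module `J` (in the application `J = J₀(N)(ℚ̄)`,
`J1` = kernel of the reduction at `A`, `z` = the `g` formal coordinates).
The group law is only required to be *approximable* by polynomials with coefficients in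
`R = unrInt A`, on every finite subset of `J1` and to every `ℓ`-adic precision. -/
structure IsCoordDatum (ℓ : ℕ) (A : ValuationSubring Qb) (J : Type) [AddCommGroup J]
    [DistribMulAction GQ J] (g : ℕ) (J1 : AddSubgroup J) (z : J → Fin g → Qb) : Prop where
  /-- the coordinates lie in the maximal ideal -/
  z_mem : ∀ c ∈ J1, ∀ i, z c i ∈ A ∧ z c i ∈ A.nonunits
  /-- the coordinates separate the points of `J1` -/
  z_inj : ∀ c ∈ J1, ∀ c' ∈ J1, z c = z c' → c = c'
  /-- `J1` is stable under the decomposition group -/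
  dec_stable : ∀ σ ∈ A.decompositionSubgroup ℚ, ∀ c ∈ J1, σ • c ∈ J1
  /-- the coordinates are equivariant for the inertia group -/
  z_equiv : ∀ σ ∈ A.inertiaSubgroupIn ℚ, ∀ c ∈ J1, ∀ i, z (σ • c) i = σ (z c i)
  /-- the group law is approximable by polynomials over `R` -/
  add_approx : ∀ S : Finset J, (∀ c ∈ S, c ∈ J1) → ∀ M : ℕ,
    ∃ G : Fin g → MvPolynomial (Fin g ⊕ Fin g) Qb,
      (∀ i m, (G i).coeff m ∈ unrInt A) ∧
      ∀ c ∈ S, ∀ c' ∈ S, ∀ i, ∃ a ∈ A,
        z (c + c') i - MvPolynomial.eval (Sum.elim (z c) (z c')) (G i) = (ℓ : Qb) ^ M * a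

/-- Every point of `Z` is congruent modulo `J1` to a point fixed by inertia. -/
def HasUnrLifts (A : ValuationSubring Qb) {J : Type} [AddCommGroup J] [DistribMulAction GQ J]
    (J1 : AddSubgroup J) (Z : AddSubgroup J) : Prop :=
  ∀ P ∈ Z, ∃ P₀ : J, (∀ σ ∈ A.inertiaSubgroupIn ℚ, σ • P₀ = P₀) ∧ P - P₀ ∈ J1

/-! ### The unramified Hopf order -/

/-- An unramified Hopf order: a ring of `ℚ̄`-valued functions on `Z` containing the constants of
`R`, integral valued, inertia equivariant, stable under conjugation by the decomposition group,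
separating points and closed under comultiplication. -/
structure IsUnrHopfOrder (A : ValuationSubring Qb) {Z : Type} [AddCommGroup Z]
    (act : GQ → Z → Z) (Hu : Subring (Z → Qb)) : Prop where
  const_mem : ∀ c ∈ unrInt A, (fun _ : Z => c) ∈ Hu
  integral : ∀ h ∈ Hu, ∀ z : Z, h z ∈ A
  inertia_equiv : ∀ h ∈ Hu, ∀ σ ∈ A.inertiaSubgroupIn ℚ, ∀ z : Z, h (act σ z) = σ (h z)
  dec_stable : ∀ h ∈ Hu, ∀ σ ∈ A.decompositionSubgroup ℚ,
    (fun z : Z => σ (h (act σ⁻¹ z))) ∈ Hu
  separates : ∀ z z' : Z, z ≠ z' → ∃ h ∈ Hu, h z ≠ h z'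
  comul_mem : ∀ h ∈ Hu, ∃ (n : ℕ) (a b : Fin n → Z → Qb),
    (∀ i, a i ∈ Hu) ∧ (∀ i, b i ∈ Hu) ∧ ∀ z z' : Z, h (z + z') = ∑ i, a i z * b i z'

/-- The Galois action on a Galois-stable subgroup. -/
def subAct {J : Type} [AddCommGroup J] [DistribMulAction GQ J] (Z : AddSubgroup J)
    (hZ : ∀ (σ : GQ), ∀ P ∈ Z, σ • P ∈ Z) : GQ → Z → Z :=
  fun σ P => ⟨σ • (P : J), hZ σ P P.2⟩

/-- **FF-C (sup-norm closure).**  A coordinate datum gives an unramified Hopf order on every
finite smooth Galois-stable subgroup with unramified lifts.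
Construction: `Hu` := the `R`-algebra generated by the `D`-conjugates of the indicator functions
of the cosets of `Z ∩ J1` and of the functions `P ↦ z_i (P - P₀(coset))` (extended by zero). -/
def UnrOrderOfCoordStatement : Prop :=
  ∀ (ℓ : ℕ) [Fact ℓ.Prime] (A : ValuationSubring Qb), A.LiesOverPrime ℓ →
    ∀ (J : Type) [AddCommGroup J] [DistribMulAction GQ J] (g : ℕ) (J1 : AddSubgroup J)
      (z : J → Fin g → Qb), IsCoordDatum ℓ A J g J1 z →
    ∀ (Z : AddSubgroup J) [Finite Z] (hZ : ∀ (σ : GQ), ∀ P ∈ Z, σ • P ∈ Z),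
      IsSmoothOn (Z : Set J) → HasUnrLifts A J1 Z →
      ∃ Hu : Subring (Z → Qb), IsUnrHopfOrder A (subAct Z hZ) Hu

/-- **FF-D (descent).**  An unramified Hopf order descends to a concrete Hopf order over
`ℤ_(ℓ)`: `H₀ := {h ∈ Hu | h is G_ℚ-equivariant}`. -/
def DescentStatement : Prop :=
  ∀ (ℓ : ℕ) [Fact ℓ.Prime] (A : ValuationSubring Qb), PlaceFacts ℓ A →
    ∀ (Z : Type) [AddCommGroup Z] [Finite Z] [DistribMulAction GQ Z],
      IsSmoothOn (Set.univ : Set Z) →
      ∀ Hu : Subring (Z → Qb), IsUnrHopfOrder A (fun (σ : GQ) (z : Z) => σ • z) Hu →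
        ∃ H₀ : Subalgebra (Zl ℓ) (Z → Qb),
          IsConcreteHopfOrder ℓ (fun (σ : GQ) (z : Z) => σ • z) H₀

end Fermat.Agent.H72.FF
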