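/-
P-FF (S19, S32), architect helper72: GEOMETRIC INTERFACE + ASSEMBLY OF S19.

* `CoordDatumStatement` : the geometric heart (formal coordinates on the kernel of reduction of
  `J₀(N)` with polynomially approximable group law), under exactly the hypotheses of the
  S18 core of P-ES (`Fermat.Agent.H27.ESD.S18CoreFFStatement`).
* `S19At N ℓ k` : the conclusion of S19 as a Hopf model of `J₀(N)[ℓ^k]`.
* `s19At_of_coord` : assembly at a pair `(N, ℓ)` where reduction inputs exist.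
-/
import Fermat.Agent.H72.FF.Interfaces
import Fermat.Agent.H27.ESD.Interfaces2

set_option autoImplicit false
set_option synthInstance.maxHeartbeats 400000
set_option linter.style.haveILetI false

noncomputable section

open AlgebraicCurve ModularCurve

namespace Fermat.Agent.H72.FF

open Fermat.Agent.H10.FF

/-- **FF-GEO (the geometric heart).**  Formal coordinates on the kernel of reduction. -/
def CoordDatumStatement : Prop :=
  ∀ (N : ℕ) [NeZero N] (ℓ : ℕ) [Fact ℓ.Prime], ¬ ℓ ∣ N →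
    ∀ (A : ValuationSubring (AlgebraicClosure ℚ)), A.LiesOverPrime ℓ →
      ∀ (_h : ModularCurve.ReductionInputsModL A N),
        IsAlgClosed (IsLocalRing.ResidueField A) →
        Fermat.Agent.H58.RRHyp (IsLocalRing.ResidueField A)
          ↥(modularFunctionFieldFullC (IsLocalRing.ResidueField A) N) →
        genusFF (AlgebraicClosure ℚ) ↥(modularFunctionFieldBar N) ≤
          genusFF (IsLocalRing.ResidueField A)
            ↥(modularFunctionFieldFullC (IsLocalRing.ResidueField A) N) →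
        ∃ (g : ℕ) (J1 : AddSubgroup (JZero N)) (z : JZero N → Fin g → Qb),
          IsCoordDatum ℓ A (JZero N) g J1 z ∧
          ∀ P : JZero N, ∃ P₀ : JZero N,
            (∀ σ ∈ A.inertiaSubgroupIn ℚ, σ • P₀ = P₀) ∧ P - P₀ ∈ J1

/-- The `m`-torsion subgroup of `J₀(N)`. -/
def jTors (N : ℕ) (m : ℤ) : AddSubgroup (JZero N) :=
  (Submodule.torsionBy ℤ (JZero N) m).toAddSubgroup

theorem mem_jTors {N : ℕ} {m : ℤ} {P : JZero N} : P ∈ jTors N m ↔ m • P = 0 :=
  Submodule.mem_torsionBy_iff _ _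

theorem jTors_stable (N : ℕ) (m : ℤ) (σ : GQ) (P : JZero N) (hP : P ∈ jTors N m) :
    σ • P ∈ jTors N m := by
  rw [mem_jTors] at hP ⊢
  rw [smul_comm, hP]
  exact smul_zero (A := JZero N) σ

/-- The conclusion of S19 at `(N, ℓ, k)`, as a Hopf model. -/
def S19At (N ℓ k : ℕ) : Prop :=
  HasHopfModel ℓ ↥(jTors N ((ℓ : ℤ) ^ k)) (subAct (jTors N ((ℓ : ℤ) ^ k)) (jTors_stable N _))

/-- Finiteness of the torsion of `J₀(N)`. -/
def TorsionFiniteStatement : Prop :=
  ∀ (N : ℕ) [NeZero N] (m : ℤ), m ≠ 0 → Finite ↥(jTors N m)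

/-- Smoothness of the torsion of `J₀(N)` (finite level). -/
def TorsionSmoothStatement : Prop :=
  ∀ (N : ℕ) [NeZero N] (m : ℤ), m ≠ 0 → IsSmoothOn ((jTors N m : AddSubgroup (JZero N)) : Set (JZero N))

/-- **Algebraic assembly**: a coordinate datum with unramified lifts gives a Hopf model of every
finite smooth Galois-stable subgroup. -/
theorem hasHopfModel_of_coord (hC : UnrOrderOfCoordStatement) (hD : DescentStatement)
    (hCore : ConcreteOrderStatement)
    (ℓ : ℕ) [Fact ℓ.Prime] (A : ValuationSubring Qb) (hP : PlaceFacts ℓ A)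
    (J : Type) [AddCommGroup J] [DistribMulAction GQ J] (g : ℕ) (J1 : AddSubgroup J)
    (z : J → Fin g → Qb) (hz : IsCoordDatum ℓ A J g J1 z)
    (Z : AddSubgroup J) [Finite Z] (hZ : ∀ (σ : GQ), ∀ P ∈ Z, σ • P ∈ Z)
    (hs : IsSmoothOn (Z : Set J)) (hl : HasUnrLifts A J1 Z) :
    HasHopfModel ℓ Z (subAct Z hZ) := by
  obtain ⟨Hu, hHu⟩ := hC ℓ A hP.liesOver J g J1 z hz Z hZ hs hl
  letI inst : DistribMulAction GQ Z :=
    { smul := fun σ P => subAct Z hZ σ P
      one_smul := fun P => Subtype.ext (one_smul GQ (P : J))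
      mul_smul := fun σ τ P => Subtype.ext (mul_smul σ τ (P : J))
      smul_zero := fun σ => Subtype.ext (smul_zero σ)
      smul_add := fun σ P Q => Subtype.ext (smul_add σ (P : J) (Q : J)) }
  have hs' : IsSmoothOn (Set.univ : Set Z) := by
    obtain ⟨E, hE, hfix⟩ := hs
    exact ⟨E, hE, fun σ hσ P _ => Subtype.ext (hfix σ hσ (P : J) P.2)⟩
  obtain ⟨H₀, hH₀⟩ := hD ℓ A hP Z hs' Hu hHu
  exact hCore ℓ Z H₀ hH₀

/-- **Assembly of S19 at a pair with reduction inputs.** -/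
theorem s19At_of_coord (hG : CoordDatumStatement) (hC : UnrOrderOfCoordStatement)
    (hD : DescentStatement) (hCore : ConcreteOrderStatement)
    (hfin : TorsionFiniteStatement) (hsm : TorsionSmoothStatement)
    (N : ℕ) [NeZero N] (ℓ : ℕ) [Fact ℓ.Prime] (hℓN : ¬ ℓ ∣ N)
    (A : ValuationSubring (AlgebraicClosure ℚ)) (hP : PlaceFacts ℓ A)
    (h : ModularCurve.ReductionInputsModL A N)
    (hk : IsAlgClosed (IsLocalRing.ResidueField A))
    (hrr : Fermat.Agent.H58.RRHyp (IsLocalRing.ResidueField A)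
      ↥(modularFunctionFieldFullC (IsLocalRing.ResidueField A) N))
    (hgen : genusFF (AlgebraicClosure ℚ) ↥(modularFunctionFieldBar N) ≤
      genusFF (IsLocalRing.ResidueField A)
        ↥(modularFunctionFieldFullC (IsLocalRing.ResidueField A) N))
    (k : ℕ) : S19At N ℓ k := by
  obtain ⟨g, J1, z, hz, hlift⟩ := hG N ℓ hℓN A hP.liesOver h hk hrr hgen
  have hℓ : ((ℓ : ℤ) ^ k) ≠ 0 := pow_ne_zero _ (by exact_mod_cast (Fact.out : ℓ.Prime).ne_zero)
  haveI := hfin N ((ℓ : ℤ) ^ k) hℓ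
  exact hasHopfModel_of_coord hC hD hCore ℓ A hP (JZero N) g J1 z hz _ (jTors_stable N _)
    (hsm N _ hℓ) (fun P _ => hlift P)

/-- S19 at tame pairs. -/
def S19TameStatement : Prop :=
  ∀ (N : ℕ) [NeZero N] (ℓ : ℕ) [Fact ℓ.Prime], ¬ ℓ ∣ N → Fermat.Agent.H27.ESD.TamePair N ℓ →
    ∀ k : ℕ, S19At N ℓ k

/-- **FF-LC (level change for Hopf models).**  `(M, ℓ) = (3, 2)` or `(2, 3)`, `M ∤ N`, `ℓ ∤ N`:
Hopf models of the `ℓ`-power torsion at level `M * N` give Hopf models at level `N`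
(`J₀(N)[ℓ^k]` is a quotient of a Galois submodule of `J₀(M N)[ℓ^(k+a)]`, `ℓ^a = M + 1`). -/
def LevelChangeFFStatement : Prop :=
  ∀ (N : ℕ) [NeZero N] (M ℓ : ℕ) [Fact ℓ.Prime] [NeZero (M * N)],
    ((M = 3 ∧ ℓ = 2) ∨ (M = 2 ∧ ℓ = 3)) → ¬ M ∣ N → ¬ ℓ ∣ N →
    (∀ k : ℕ, S19At (M * N) ℓ k) → ∀ k : ℕ, S19At N ℓ k

/-- S19 for all pairs, as Hopf models. -/
theorem s19At_of_tame (hT : S19TameStatement) (hL : LevelChangeFFStatement)
    (N : ℕ) [NeZero N] (ℓ : ℕ) [Fact ℓ.Prime] (hℓN : ¬ ℓ ∣ N) (k : ℕ) : S19At N ℓ k := by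
  have hℓ : ℓ.Prime := Fact.out
  rcases Fermat.Agent.H27.ESD.tamePair_or_wild N ℓ hℓ with ht | ⟨h2, h3⟩ | ⟨h3, h2⟩
  · exact hT N ℓ hℓN ht k
  · have : NeZero (3 * N) := ⟨Nat.mul_ne_zero (by norm_num) (NeZero.ne N)⟩
    have hℓN' : ¬ ℓ ∣ 3 * N := by
      intro hd
      rcases (Nat.Prime.dvd_mul hℓ).mp hd with hd | hd
      · subst h2; exact absurd hd (by decide)
      · exact hℓN hd
    have ht' : Fermat.Agent.H27.ESD.TamePair (3 * N) ℓ :=
      Or.inr (Or.inr ⟨h2, dvd_mul_right 3 N⟩)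
    exact hL N 3 ℓ (Or.inl ⟨rfl, h2⟩) h3 hℓN (fun k => hT (3 * N) ℓ hℓN' ht' k) k
  · have : NeZero (2 * N) := ⟨Nat.mul_ne_zero (by norm_num) (NeZero.ne N)⟩
    have hℓN' : ¬ ℓ ∣ 2 * N := by
      intro hd
      rcases (Nat.Prime.dvd_mul hℓ).mp hd with hd | hd
      · subst h3; exact absurd hd (by decide)
      · exact hℓN hd
    have ht' : Fermat.Agent.H27.ESD.TamePair (2 * N) ℓ :=
      Or.inr (Or.inl ⟨h3, dvd_mul_right 2 N⟩)
    exact hL N 2 ℓ (Or.inr ⟨rfl, h3⟩) h2 hℓN (fun k => hT (2 * N) ℓ hℓN' ht' k) k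

/-- S19 at tame pairs from the geometric heart, the algebraic blocks and the three P-ES targets
`RRModLStatement` [T1], `GenusFFTameStatement` [T3], `ExistsReductionTameStatement` [T4]. -/
theorem s19Tame_of (hG : CoordDatumStatement) (hC : UnrOrderOfCoordStatement)
    (hD : DescentStatement) (hCore : ConcreteOrderStatement) (hPl : PlaceFactsStatement)
    (hfin : TorsionFiniteStatement) (hsm : TorsionSmoothStatement)
    (hA : ∀ (ℓ : ℕ), ℓ.Prime → ∃ A : ValuationSubring (AlgebraicClosure ℚ), A.LiesOverPrime ℓ)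
    (h1 : Fermat.Agent.H27.ESD.RRModLStatement)
    (h3 : Fermat.Agent.H27.ESD.GenusFFTameStatement)
    (h4 : Fermat.Agent.H27.ESD.ExistsReductionTameStatement) : S19TameStatement := by
  intro N _ ℓ _ hℓN ht k
  obtain ⟨A, hAℓ⟩ := hA ℓ Fact.out
  have h := h4 N ℓ hℓN ht A hAℓ
  obtain ⟨hk, hrr⟩ := h1 N ℓ hℓN A hAℓ
  exact s19At_of_coord hG hC hD hCore hfin hsm N ℓ hℓN A (hPl ℓ A hAℓ) h hk hrr
    (h3 N ℓ hℓN ht A hAℓ h hrr) k

/-- From the Hopf-model form to the frozen shape of S19. -/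
theorem s19_shape_of_s19At {N ℓ k : ℕ} (h : S19At N ℓ k) :
    ∃ (H : Type) (_ : CommRing H) (_ : HopfAlgebra (GaloisRep.ratLocalizedAt ℓ) H),
      Module.Finite (GaloisRep.ratLocalizedAt ℓ) H ∧ Module.Flat (GaloisRep.ratLocalizedAt ℓ) H ∧
      Coalgebra.IsCocomm (GaloisRep.ratLocalizedAt ℓ) H ∧
      ∃ e : WithConv (H →ₐ[GaloisRep.ratLocalizedAt ℓ] AlgebraicClosure ℚ) ≃
          ↥(Submodule.torsionBy ℤ (JZero N) ((ℓ : ℤ) ^ k)),
        (∀ f g, e (f * g) = e f + e g) ∧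
        ∀ (σ : AlgebraicClosure ℚ ≃ₐ[ℚ] AlgebraicClosure ℚ)
          (f g : WithConv (H →ₐ[GaloisRep.ratLocalizedAt ℓ] AlgebraicClosure ℚ)),
          (∀ h : H, g h = σ (f h)) → ((e g : JZero N)) = σ • (e f : JZero N) := by
  obtain ⟨H, i1, i2, hfin, hflat, hco, e, hadd, hgal⟩ := h
  refine ⟨H, i1, i2, hfin, hflat, hco, e, hadd, ?_⟩
  intro σ f g hfg
  have := hgal σ f g hfg
  exact congrArg Subtype.val this

end Fermat.Agent.H72.FF
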