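/-
P-FF (S19, S32), architect helper72: THE GEOMETRIC BLOCKS (FF-G1 .. FF-G7), on top of helper18's
Gauss-ring API (`Fermat.Agent.H18`: `RvHyp`, `rvRing`, `rvRed`, value lemma, coordinates,
lifting) and the Riemann packages of P-ES.

Standing hypotheses = `GeoSetup N ℓ A r g`.  Notation: `F_L = FLb N = ℚ̄(X₀(N))`,
`F_k = Fkb A N`, `O = rvRing A (residue A) N` the Gauss ring, `red = rvRed`,
`I = A.inertiaSubgroupIn ℚ`, `D = A.decompositionSubgroup ℚ`, `R = unrInt A`.
`G_ℚ` acts on `F_L` coefficientwise (`galF N σ`), hence on places, divisors and `J₀(N)`.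

Assembly: `coordDatum_of_blocks : JacCoordStatement → AddApproxStatement → CoordDatumStatement`.
-/
import Fermat.Agent.H72.FF.GeoInterfaces
import Fermat.Agent.H18.RedCoordStmt

set_option autoImplicit false
set_option synthInstance.maxHeartbeats 400000
set_option linter.style.haveILetI false
set_option linter.unusedSectionVars false

noncomputable section

open AlgebraicCurve ModularCurve Fermat.Agent.H18 Fermat.Agent.H27.ESD

namespace Fermat.Agent.H72.FF

open Fermat.Agent.H10.FF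

/-- `F_L = ℚ̄(X₀(N))`. -/
abbrev FLb (N : ℕ) : Type := ↥(rvFL Qb N)

/-- the residue field `k` of `A` -/
abbrev kRes (A : ValuationSubring Qb) : Type := IsLocalRing.ResidueField A

/-- `F_k`, the function field of the special fibre -/
abbrev Fkb (A : ValuationSubring Qb) (N : ℕ) : Type := ↥(rvFk (kRes A) N)

/-- the coefficientwise Galois action on `F_L` -/
abbrev galF (N : ℕ) (σ : GQ) : SemilinearAut Qb (FLb N) :=
  arithmeticGalois (modularFunctionFieldFull N) σ

/-- The Gauss ring `O`. -/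
abbrev gaussRing (A : ValuationSubring Qb) (N : ℕ) : Subring (FLb N) :=
  rvRing A (IsLocalRing.residue A) N

/-- The reduction `O → F_k`. -/
abbrev gaussRed (A : ValuationSubring Qb) (N : ℕ) : gaussRing A N →+* Fkb A N :=
  rvRed A (IsLocalRing.residue A) N

/-- **Standing hypotheses of the geometric blocks.** -/
structure GeoSetup (N ℓ : ℕ) (A : ValuationSubring Qb)
    (r : Place Qb (FLb N) → Place (kRes A) (Fkb A N)) (g : ℕ) : Prop where
  prime : ℓ.Prime
  ndvd : ¬ ℓ ∣ N
  pos : N ≠ 0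
  liesOver : A.LiesOverPrime ℓ
  rv : RvHyp A (IsLocalRing.residue A) N r
  algClosed : IsAlgClosed (kRes A)
  pkgL : RiemannPackage Qb (FLb N) g
  pkgk : RiemannPackage (kRes A) (Fkb A N) g

/-- `y` is fixed by the inertia group (its `q`-expansion has coefficients in `ℚ̄^I`). -/
def IsUnrFn (A : ValuationSubring Qb) (N : ℕ) (y : FLb N) : Prop :=
  ∀ σ ∈ A.inertiaSubgroupIn ℚ, galF N σ • y = y

/-- the place `P` is fixed by the inertia group -/
def IsUnrPlace (A : ValuationSubring Qb) (N : ℕ) (P : Place Qb (FLb N)) : Prop :=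
  ∀ σ ∈ A.inertiaSubgroupIn ℚ, galF N σ • P = P

/-- "`y(P) = c`" -/
def HasValue {N : ℕ} (P : Place Qb (FLb N)) (y : FLb N) (c : Qb) : Prop :=
  y = algebraMap Qb (FLb N) c ∨ 1 ≤ P.ord (y - algebraMap Qb (FLb N) c)

/-- An unramified coordinate on the residue disc of `Q`: an `I`-fixed place `P` over `Q` and an
`I`-fixed `t ∈ O` without poles on the disc, vanishing at `P`, whose reduction is a local
parameter at `Q`. -/
structure IsUnrCoord (A : ValuationSubring Qb) (N : ℕ)
    (r : Place Qb (FLb N) → Place (kRes A) (Fkb A N)) (Q : Place (kRes A) (Fkb A N))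
    (P : Place Qb (FLb N)) (t : gaussRing A N) : Prop where
  red : r P = Q
  unrP : IsUnrPlace A N P
  unrT : IsUnrFn A N (t : FLb N)
  zero : 1 ≤ P.ord (t : FLb N)
  simple : Q.ord (gaussRed A N t) = 1
  nopole : ∀ P1, r P1 = Q → 0 ≤ P1.ord (t : FLb N)

/-! ### FF-G1 .. FF-G3 -/

/-- **FF-G1.** The decomposition group permutes the residue discs. -/
def DiscEquivStatement : Prop :=
  ∀ (N ℓ : ℕ) (A : ValuationSubring Qb) (r : Place Qb (FLb N) → Place (kRes A) (Fkb A N))
    (g : ℕ), GeoSetup N ℓ A r g →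
    ∀ σ ∈ A.decompositionSubgroup ℚ, ∀ P P' : Place Qb (FLb N),
      r P = r P' → r (galF N σ • P) = r (galF N σ • P')

/-- **FF-G2.** Every place of the special fibre carries an unramified coordinate. -/
def UnrCoordStatement : Prop :=
  ∀ (N ℓ : ℕ) (A : ValuationSubring Qb) (r : Place Qb (FLb N) → Place (kRes A) (Fkb A N))
    (g : ℕ), GeoSetup N ℓ A r g →
    ∀ Q : Place (kRes A) (Fkb A N), ∃ (P : Place Qb (FLb N)) (t : gaussRing A N),
      IsUnrCoord A N r Q P t

/-- **FF-G2' (unramified lifting).** For an `I`-fixed place `P` and `n` large, every element of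
`L_k(n r(P))` is the reduction of an `I`-fixed element of `O ∩ L_L(n P)`. -/
def UnrLiftingStatement : Prop :=
  ∀ (N ℓ : ℕ) (A : ValuationSubring Qb) (r : Place Qb (FLb N) → Place (kRes A) (Fkb A N))
    (g : ℕ), GeoSetup N ℓ A r g →
    ∀ P : Place Qb (FLb N), IsUnrPlace A N P → ∃ n₀ : ℕ, ∀ n : ℕ, n₀ ≤ n →
      ∀ x ∈ riemannRochSpace (Finsupp.single (r P) (n : ℤ)),
        ∃ u : gaussRing A N, IsUnrFn A N (u : FLb N) ∧
          (u : FLb N) ∈ riemannRochSpace (Finsupp.single P (n : ℤ)) ∧ gaussRed A N u = x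

/-- **FF-G3 (Taylor lemma).** An `I`-fixed element `y` of `O` without poles on the disc of `Q`
is, to every order `M`, a polynomial over `R` in an unramified coordinate `t`, with an integral
remainder `t^M * (element of A)`, at every point of the disc. -/
def TaylorStatement : Prop :=
  ∀ (N ℓ : ℕ) (A : ValuationSubring Qb) (r : Place Qb (FLb N) → Place (kRes A) (Fkb A N))
    (g : ℕ), GeoSetup N ℓ A r g →
    ∀ (Q : Place (kRes A) (Fkb A N)) (P : Place Qb (FLb N)) (t : gaussRing A N),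
      IsUnrCoord A N r Q P t →
      ∀ y : gaussRing A N, IsUnrFn A N (y : FLb N) →
        (∀ P1, r P1 = Q → 0 ≤ P1.ord (y : FLb N)) →
        ∀ M : ℕ, ∃ p : Polynomial Qb, (∀ n, p.coeff n ∈ unrInt A) ∧
          ∀ P1, r P1 = Q → ∀ a b : Qb, HasValue P1 (t : FLb N) a → HasValue P1 (y : FLb N) b →
            ∃ e ∈ A, b - p.eval a = a ^ M * e

/-- **FF-G3, official form (Taylor lemma with reduction).**  As `TaylorStatement`, with the
coefficients `c n ∈ R` exposed, and compatible with the reduction: `red y` agrees with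
`∑_{n<M} (c n mod m_A) (red t)^n` to order `M` at `Q`. -/
def TaylorRedStatement : Prop :=
  ∀ (N ℓ : ℕ) (A : ValuationSubring Qb) (r : Place Qb (FLb N) → Place (kRes A) (Fkb A N))
    (g : ℕ), GeoSetup N ℓ A r g →
    ∀ (Q : Place (kRes A) (Fkb A N)) (P : Place Qb (FLb N)) (t : gaussRing A N),
      IsUnrCoord A N r Q P t →
      ∀ y : gaussRing A N, IsUnrFn A N (y : FLb N) →
        (∀ P1, r P1 = Q → 0 ≤ P1.ord (y : FLb N)) →
        ∀ M : ℕ, ∃ c : Fin M → A, (∀ n, ((c n : A) : Qb) ∈ unrInt A) ∧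
          (∀ P1, r P1 = Q → ∀ a b : Qb, HasValue P1 (t : FLb N) a →
            HasValue P1 (y : FLb N) b →
            ∃ e ∈ A, b - ∑ n : Fin M, ((c n : A) : Qb) * a ^ (n : ℕ) = a ^ M * e) ∧
          (gaussRed A N y - ∑ n : Fin M,
              algebraMap (kRes A) (Fkb A N) (IsLocalRing.residue A (c n)) *
                (gaussRed A N t) ^ (n : ℕ) = 0 ∨
            (M : ℤ) ≤ (Q.ord (gaussRed A N y - ∑ n : Fin M,
              algebraMap (kRes A) (Fkb A N) (IsLocalRing.residue A (c n)) *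
                (gaussRed A N t) ^ (n : ℕ))))

/-! ### FF-G4 : class `C` calculus (pure algebra) -/

/-- `φ` is an `ℓ`-adic limit of polynomials over `R = unrInt A` in the parameters `x`, uniformly
on the parameter set `S`. -/
def IsApprox (ℓ : ℕ) (A : ValuationSubring Qb) {S : Type} {n : ℕ} (x : S → Fin n → Qb)
    (φ : S → Qb) : Prop :=
  ∀ M : ℕ, ∃ G : MvPolynomial (Fin n) Qb, (∀ m, G.coeff m ∈ unrInt A) ∧
    ∀ s, ∃ a ∈ A, φ s - MvPolynomial.eval (x s) G = (ℓ : Qb) ^ M * a

/-- **FF-G4a.** inverses of unit-valued approximable functions are approximable -/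
def ApproxInvStatement : Prop :=
  ∀ (ℓ : ℕ) (A : ValuationSubring Qb), ℓ.Prime → A.LiesOverPrime ℓ →
    ∀ (S : Type) [Finite S] (n : ℕ) (x : S → Fin n → Qb), (∀ s i, x s i ∈ A.nonunits) →
    ∀ φ : S → Qb, IsApprox ℓ A x φ → (∀ s, φ s ∈ A ∧ (φ s)⁻¹ ∈ A) →
      IsApprox ℓ A x (fun s => (φ s)⁻¹)

/-- **FF-G4b.** substitution -/
def ApproxCompStatement : Prop :=
  ∀ (ℓ : ℕ) (A : ValuationSubring Qb), ℓ.Prime → A.LiesOverPrime ℓ →
    ∀ (S : Type) [Finite S] (n m : ℕ) (x : S → Fin n → Qb) (ψ : S → Fin m → Qb),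
    (∀ s i, x s i ∈ A.nonunits) → (∀ s j, ψ s j ∈ A) →
    (∀ j, IsApprox ℓ A x (fun s => ψ s j)) →
    ∀ φ : S → Qb, IsApprox ℓ A ψ φ → IsApprox ℓ A x φ

/-- **FF-G4c (simple Hensel roots).** If, to every precision `M`, `ρ` is a root modulo `ℓ^M` of a
polynomial `∑ φ_j T^j` with approximable integral coefficients, `φ_0` in the maximal ideal and
`φ_1` a unit, and `ρ` has values in the maximal ideal, then `ρ` is approximable.
(Corrected 20:00Z after helper90's counterexample: `φ 1 s ≠ 0` is required, because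
`0⁻¹ = 0 ∈ A`.) -/
def ApproxRootStatement : Prop :=
  ∀ (ℓ : ℕ) (A : ValuationSubring Qb), ℓ.Prime → A.LiesOverPrime ℓ →
    ∀ (S : Type) [Finite S] (n : ℕ) (x : S → Fin n → Qb), (∀ s i, x s i ∈ A.nonunits) →
    ∀ ρ : S → Qb, (∀ s, ρ s ∈ A.nonunits) →
    (∀ M : ℕ, ∃ (d : ℕ) (φ : Fin (d + 2) → S → Qb),
      (∀ j, IsApprox ℓ A x (φ j)) ∧ (∀ j s, φ j s ∈ A) ∧
      (∀ s, φ 0 s ∈ A.nonunits) ∧ (∀ s, φ 1 s ≠ 0 ∧ (φ 1 s)⁻¹ ∈ A) ∧
      ∀ s, ∃ e ∈ A, ∑ j : Fin (d + 2), φ j s * ρ s ^ (j : ℕ) = (ℓ : Qb) ^ M * e) →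
    IsApprox ℓ A x ρ

/-! ### FF-G5 : generic sections on the special fibre -/

/-- **FF-G5.** On the special fibre: for `n` large there is a function with poles only at `Q∞`,
of exact order `n`, with a simple zero at `Q`, all of whose zeros are simple and lie outside a
given finite set (except `Q`). -/
def GenericSectionStatement : Prop :=
  ∀ (N ℓ : ℕ) (A : ValuationSubring Qb) (r : Place Qb (FLb N) → Place (kRes A) (Fkb A N))
    (g : ℕ), GeoSetup N ℓ A r g →
    ∀ (Qinf Q : Place (kRes A) (Fkb A N)), Q ≠ Qinf →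
    ∀ bad : Finset (Place (kRes A) (Fkb A N)), ∃ n₀ : ℕ, ∀ n : ℕ, n₀ ≤ n →
      ∃ f : Fkb A N, f ≠ 0 ∧ Qinf.ord f = -(n : ℤ) ∧ Q.ord f = 1 ∧
        (∀ v, v ≠ Qinf → 0 ≤ v.ord f ∧ v.ord f ≤ 1) ∧
        ∀ v ∈ bad, v ≠ Q → v ≠ Qinf → v.ord f = 0

/-! ### FF-G6, FF-G7 : coordinates on the kernel of reduction and the group law -/

/-- A Jacobi coordinate system: `g` distinct places `Qs i` of the special fibre with
`L_k(∑ Qs i) = k`, and an unramified coordinate `(O i, t i)` at each of them. -/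
structure IsJacSystem (A : ValuationSubring Qb) (N : ℕ)
    (r : Place Qb (FLb N) → Place (kRes A) (Fkb A N)) (g : ℕ)
    (Qs : Fin g → Place (kRes A) (Fkb A N)) (O : Fin g → Place Qb (FLb N))
    (t : Fin g → gaussRing A N) : Prop where
  inj : Function.Injective Qs
  nonspecial : ∀ f : Fkb A N,
    f ∈ riemannRochSpace (∑ i, Finsupp.single (Qs i) (1 : ℤ)) →
      ∃ c : kRes A, f = algebraMap (kRes A) (Fkb A N) c
  coord : ∀ i, IsUnrCoord A N r (Qs i) (O i) (t i)

/-- `z` is the coordinate map of the system on `J1`, and `J1` is the kernel of reduction: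
`c ∈ J1` iff `c = [∑ (P i - O i)]` with `P i` in the disc of `Qs i`, and then
`z c i = t_i(P i)`. -/
structure IsJacCoord {A : ValuationSubring Qb} {N : ℕ}
    (r : Place Qb (FLb N) → Place (kRes A) (Fkb A N)) {g : ℕ}
    (Qs : Fin g → Place (kRes A) (Fkb A N)) (O : Fin g → Place Qb (FLb N))
    (t : Fin g → gaussRing A N) (J1 : AddSubgroup (JZero N)) (z : JZero N → Fin g → Qb) :
    Prop where
  mem_iff : ∀ c : JZero N, c ∈ J1 ↔
    ∃ (P : Fin g → Place Qb (FLb N))
      (D : Divisor.degZero (K := Qb) (F := FLb N)),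
      (∀ i, r (P i) = Qs i) ∧
      (D : Divisor Qb (FLb N)) = ∑ i, (Finsupp.single (P i) (1 : ℤ) - Finsupp.single (O i) 1) ∧
      c = Pic0.mk D
  value : ∀ (c : JZero N) (P : Fin g → Place Qb (FLb N))
      (D : Divisor.degZero (K := Qb) (F := FLb N)),
      (∀ i, r (P i) = Qs i) →
      (D : Divisor Qb (FLb N)) = ∑ i, (Finsupp.single (P i) (1 : ℤ) - Finsupp.single (O i) 1) →
      c = Pic0.mk D → ∀ i, HasValue (P i) (t i : FLb N) (z c i)

/-- **FF-G6.** Existence of a Jacobi coordinate system with its coordinate map, and the first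
four fields of `IsCoordDatum` + unramified lifts of all classes. -/
def JacCoordStatement : Prop :=
  ∀ (N ℓ : ℕ) (A : ValuationSubring Qb) (r : Place Qb (FLb N) → Place (kRes A) (Fkb A N))
    (g : ℕ), GeoSetup N ℓ A r g →
    ∃ (Qs : Fin g → Place (kRes A) (Fkb A N)) (O : Fin g → Place Qb (FLb N))
      (t : Fin g → gaussRing A N) (J1 : AddSubgroup (JZero N)) (z : JZero N → Fin g → Qb),
      IsJacSystem A N r g Qs O t ∧ IsJacCoord r Qs O t J1 z ∧
      (∀ c ∈ J1, ∀ i, z c i ∈ A ∧ z c i ∈ A.nonunits) ∧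
      (∀ c ∈ J1, ∀ c' ∈ J1, z c = z c' → c = c') ∧
      (∀ σ ∈ A.decompositionSubgroup ℚ, ∀ c ∈ J1, σ • c ∈ J1) ∧
      (∀ σ ∈ A.inertiaSubgroupIn ℚ, ∀ c ∈ J1, ∀ i, z (σ • c) i = σ (z c i)) ∧
      (∀ P : JZero N, ∃ P₀ : JZero N,
        (∀ σ ∈ A.inertiaSubgroupIn ℚ, σ • P₀ = P₀) ∧ P - P₀ ∈ J1)

/-- **FF-G7 (explicit Jacobi).** The group law in Jacobi coordinates is approximable by
polynomials over `R`. -/
def AddApproxStatement : Prop :=
  ∀ (N ℓ : ℕ) (A : ValuationSubring Qb) (r : Place Qb (FLb N) → Place (kRes A) (Fkb A N))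
    (g : ℕ), GeoSetup N ℓ A r g →
    ∀ (Qs : Fin g → Place (kRes A) (Fkb A N)) (O : Fin g → Place Qb (FLb N))
      (t : Fin g → gaussRing A N) (J1 : AddSubgroup (JZero N)) (z : JZero N → Fin g → Qb),
      IsJacSystem A N r g Qs O t → IsJacCoord r Qs O t J1 z →
      ∀ S : Finset (JZero N), (∀ c ∈ S, c ∈ J1) → ∀ M : ℕ,
        ∃ G : Fin g → MvPolynomial (Fin g ⊕ Fin g) Qb,
          (∀ i m, (G i).coeff m ∈ unrInt A) ∧
          ∀ c ∈ S, ∀ c' ∈ S, ∀ i, ∃ a ∈ A,
            z (c + c') i - MvPolynomial.eval (Sum.elim (z c) (z c')) (G i) = (ℓ : Qb) ^ M * a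

/-! ### Assembly -/

/-- The standing hypotheses hold in the situation of `CoordDatumStatement`. -/
theorem geoSetup_of_inputs (N : ℕ) [NeZero N] (ℓ : ℕ) [Fact ℓ.Prime] (hℓN : ¬ ℓ ∣ N)
    (A : ValuationSubring (AlgebraicClosure ℚ)) (hA : A.LiesOverPrime ℓ)
    (h : ModularCurve.ReductionInputsModL A N)
    (hk : IsAlgClosed (IsLocalRing.ResidueField A))
    (hrr : Fermat.Agent.H58.RRHyp (IsLocalRing.ResidueField A)
      ↥(modularFunctionFieldFullC (IsLocalRing.ResidueField A) N))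
    (hgen : genusFF (AlgebraicClosure ℚ) ↥(modularFunctionFieldBar N) ≤
      genusFF (IsLocalRing.ResidueField A)
        ↥(modularFunctionFieldFullC (IsLocalRing.ResidueField A) N)) :
    GeoSetup N ℓ A (placeReductionModL h)
      (genusFF (AlgebraicClosure ℚ) ↥(modularFunctionFieldBar N)) := by
  have hℓ : ℓ.Prime := Fact.out
  haveI := hk
  haveI : Infinite (IsLocalRing.ResidueField A) := IsAlgClosed.instInfinite
  have pL : RiemannPackage (AlgebraicClosure ℚ) ↥(modularFunctionFieldBar N)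
      (genusFF (AlgebraicClosure ℚ) ↥(modularFunctionFieldBar N)) :=
    riemannPackage_of_rrHyp (Fermat.Agent.H58.rrHyp_modularFunctionFieldBar N)
  have pk := riemannPackage_of_rrHyp hrr
  have hrv := rvHyp_of_inputs A N h pL
  have hle := hrv.genus_le (rvArch_algebraicClosure A hℓ hA) pL pk
  have heq : genusFF (IsLocalRing.ResidueField A)
      ↥(modularFunctionFieldFullC (IsLocalRing.ResidueField A) N) =
      genusFF (AlgebraicClosure ℚ) ↥(modularFunctionFieldBar N) := le_antisymm hle hgen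
  exact
    { prime := hℓ
      ndvd := hℓN
      pos := NeZero.ne N
      liesOver := hA
      rv := hrv
      algClosed := hk
      pkgL := pL
      pkgk := heq ▸ pk }

/-- **Assembly of the geometric heart** from FF-G6 and FF-G7. -/
theorem coordDatum_of_blocks (h6 : JacCoordStatement) (h7 : AddApproxStatement) :
    CoordDatumStatement := by
  intro N _ ℓ _ hℓN A hA h hk hrr hgen
  have hS := geoSetup_of_inputs N ℓ hℓN A hA h hk hrr hgen
  obtain ⟨Qs, O, t, J1, z, hsys, hz, hmem, hinj, hdec, heq, hlift⟩ :=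
    h6 N ℓ A _ _ hS
  refine ⟨_, J1, z, ?_, hlift⟩
  exact
    { z_mem := hmem
      z_inj := hinj
      dec_stable := hdec
      z_equiv := heq
      add_approx := h7 N ℓ A _ _ hS Qs O t J1 z hsys hz }

end Fermat.Agent.H72.FF
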