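/-
P-FF / FF-F (S32), architect helper72: PURE-ALGEBRA INTERFACES of the route
"`V / I V` is a quotient of a Galois submodule of `J₀(N)[p^n]^r`" (findings "FF-F BLUEPRINT").

* `BLRStatement`        (F1)  Boston-Lenstra-Ribet / Carayol: a `T[G]`-module on which the
                              Cayley-Hamilton identity of `ρ` holds is a module over `End_T(V)`.
* `SpanStatement`       (F1') residual absolute irreducibility ⇒ `ρ(G)` spans `End_T(V)`.
* `EmbeddingStatement`  (F2)  `V / Ann(W) V` embeds equivariantly into a power of `W`.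
* `ProdModelStatement`, `PowModelStatement` (F6) products of Hopf models.
-/
import Mathlib
import Fermat.Prelude.Def_GaloisRep_Adic
import Fermat.Agent.H10.FF.Interfaces

set_option autoImplicit false

noncomputable section

namespace Fermat.Agent.H72.FF

open Fermat.Agent.H10.FF

/-- **FF-F1 (BLR).**  `T` a commutative ring in which `2` is invertible, `V` free of rank `2`,
`ρ : G → Aut_T(V)` whose image spans `End_T(V)`.  If `τ : G → End_T(W)` satisfies
`τ(g)² - tr(ρ g) τ(g) + det(ρ g) = 0` for all `g`, then `τ` factors through `ρ`. -/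
def BLRStatement : Prop :=
  ∀ (T : Type) [CommRing T] (G : Type) [Group G]
    (V : Type) [AddCommGroup V] [Module T V] [Module.Free T V] [Module.Finite T V],
    Module.finrank T V = 2 → IsUnit (2 : T) →
    ∀ ρ : G →* Module.End T V, Submodule.span T (Set.range ρ) = ⊤ →
    ∀ (W : Type) [AddCommGroup W] [Module T W] (τ : G →* Module.End T W),
      (∀ g : G, τ g * τ g - LinearMap.trace T V (ρ g) • τ g
        + LinearMap.det (ρ g) • (1 : Module.End T W) = 0) →
      ∃ Φ : Module.End T V →ₐ[T] Module.End T W, ∀ g, Φ (ρ g) = τ g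

/-- **FF-F1' (span).**  For a representation over a local ring with absolutely irreducible
residual representation, the image of `G_ℚ` spans `End_T(V)` (Burnside + Nakayama). -/
def SpanStatement : Prop :=
  ∀ (T : Type) [CommRing T] [IsLocalRing T] (ρ : GaloisRepAdic T),
    ρ.residual.IsAbsolutelyIrreducible →
    Submodule.span T (Set.range ρ.ρ) = ⊤

/-- **FF-F2 (embedding).**  If the `G`-action on a finite `T`-module `W` factors through
`End_T(V)` (`V` free of rank `2`), then `V / Ann_T(W) V` embeds `G`-equivariantly into a finite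
power of `W`. -/
def EmbeddingStatement : Prop :=
  ∀ (T : Type) [CommRing T] (G : Type) [Group G]
    (V : Type) [AddCommGroup V] [Module T V] [Module.Free T V] [Module.Finite T V],
    Module.finrank T V = 2 →
    ∀ (ρ : G →* Module.End T V) (W : Type) [AddCommGroup W] [Module T W] [Finite W]
      (τ : G →* Module.End T W) (Φ : Module.End T V →ₐ[T] Module.End T W),
      (∀ g, Φ (ρ g) = τ g) →
      ∃ (r : ℕ) (φ : V →ₗ[T] (Fin r → W)),
        (∀ g v, φ (ρ g v) = fun i => τ g (φ v i)) ∧
        ∀ v, φ v = 0 ↔ v ∈ (Module.annihilator T W) • (⊤ : Submodule T V)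

/-- **FF-F6 (products).**  Hopf models of two Galois modules give a Hopf model of the
product. -/
def ProdModelStatement : Prop :=
  ∀ (ℓ : ℕ) [Fact ℓ.Prime] (Z₁ Z₂ : Type) [AddCommGroup Z₁] [AddCommGroup Z₂]
    [Finite Z₁] [Finite Z₂] [MulAction GQ Z₁] [MulAction GQ Z₂],
    HasHopfModel ℓ Z₁ (fun (σ : GQ) (z : Z₁) => σ • z) →
    HasHopfModel ℓ Z₂ (fun (σ : GQ) (z : Z₂) => σ • z) →
    HasHopfModel ℓ (Z₁ × Z₂) (fun (σ : GQ) (z : Z₁ × Z₂) => (σ • z.1, σ • z.2))

/-- **FF-F6' (powers).** -/
def PowModelStatement : Prop :=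
  ∀ (ℓ : ℕ) [Fact ℓ.Prime] (Z : Type) [AddCommGroup Z] [Finite Z] [MulAction GQ Z] (r : ℕ),
    HasHopfModel ℓ Z (fun (σ : GQ) (z : Z) => σ • z) →
    HasHopfModel ℓ (Fin r → Z) (fun (σ : GQ) (z : Fin r → Z) => fun i => σ • z i)

end Fermat.Agent.H72.FF
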