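/-
P-FF (S19), architect helper72: ASSEMBLY with the landed algebraic blocks plugged in.

Landed and used here (all unconditional):
* FF-C    `Fermat.Agent.H42.FFC.unrOrderOfCoord`        (helper42, with helper57's Cramer lemma)
* FF-D    `Fermat.Agent.H68.FFD.descent`                (helper68, leaves by helper73/47/16)
* FF-CORE `Fermat.Agent.H10.FF.concreteOrderStatement`  (helper10)
* FF-P1   `Fermat.Agent.H95.FF.placeDense`              (helper95)
* FF-P2   `Fermat.Agent.H65.placeUnrBasis`              (helper65)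
* T1      `Fermat.Agent.H16.rrModLStatement`            (helper16)

Remaining inputs of `s19_of_geo`: the geometric heart `CoordDatumStatement` (FF-G*), the torsion
adapters (FF-TORS), the P-ES targets T3 / T4 and the level change FF-LC.
-/
import Fermat.Agent.H72.FF.GeoInterfaces
import Fermat.Agent.H42.FFUnrOrder
import Fermat.Agent.H68.FFD.DescentFinal
import Fermat.Agent.H10.FF.Points
import Fermat.Agent.H95.FF.PlaceDense
import Fermat.Agent.H65.FF.PlaceUnrBasis
import Fermat.Agent.H16.ESDRRModL
import Fermat.Agent.H53.FrobeniusExists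

set_option autoImplicit false
set_option synthInstance.maxHeartbeats 400000
set_option linter.style.haveILetI false

noncomputable section

open AlgebraicCurve ModularCurve

namespace Fermat.Agent.H72.FF

open Fermat.Agent.H10.FF

/-- FF-P: the place facts hold at every place over `ℓ`. -/
theorem placeFactsStatement : PlaceFactsStatement := by
  intro ℓ _ A hA
  exact ⟨hA, Fermat.Agent.H95.FF.placeDense ℓ A hA, Fermat.Agent.H65.placeUnrBasis ℓ A hA⟩

/-- **The algebraic half of P-FF, unconditional**: a coordinate datum with unramified lifts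
gives a Hopf model of every finite smooth Galois-stable subgroup. -/
theorem hasHopfModel_of_coordDatum
    (ℓ : ℕ) [Fact ℓ.Prime] (A : ValuationSubring Qb) (hA : A.LiesOverPrime ℓ)
    (J : Type) [AddCommGroup J] [DistribMulAction GQ J] (g : ℕ) (J1 : AddSubgroup J)
    (z : J → Fin g → Qb) (hz : IsCoordDatum ℓ A J g J1 z)
    (Z : AddSubgroup J) [Finite Z] (hZ : ∀ (σ : GQ), ∀ P ∈ Z, σ • P ∈ Z)
    (hs : IsSmoothOn (Z : Set J)) (hl : HasUnrLifts A J1 Z) :
    HasHopfModel ℓ Z (subAct Z hZ) :=
  hasHopfModel_of_coord Fermat.Agent.H42.FFC.unrOrderOfCoord Fermat.Agent.H68.FFD.descent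
    Fermat.Agent.H10.FF.concreteOrderStatement ℓ A (placeFactsStatement ℓ A hA) J g J1 z hz Z hZ
    hs hl

/-- S19 at tame pairs from the geometric heart, the torsion adapters and T3, T4. -/
theorem s19Tame_of_geo (hG : CoordDatumStatement)
    (hfin : TorsionFiniteStatement) (hsm : TorsionSmoothStatement)
    (h3 : Fermat.Agent.H27.ESD.GenusFFTameStatement)
    (h4 : Fermat.Agent.H27.ESD.ExistsReductionTameStatement) : S19TameStatement :=
  s19Tame_of hG Fermat.Agent.H42.FFC.unrOrderOfCoord Fermat.Agent.H68.FFD.descent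
    Fermat.Agent.H10.FF.concreteOrderStatement placeFactsStatement hfin hsm
    (fun _ hℓ => Fermat.Agent.H53.exists_liesOverPrime (AlgebraicClosure ℚ) hℓ)
    Fermat.Agent.H16.rrModLStatement h3 h4

/-- **S19 in the frozen shape**, from the five remaining inputs. -/
theorem s19_of_geo (hG : CoordDatumStatement)
    (hfin : TorsionFiniteStatement) (hsm : TorsionSmoothStatement)
    (h3 : Fermat.Agent.H27.ESD.GenusFFTameStatement)
    (h4 : Fermat.Agent.H27.ESD.ExistsReductionTameStatement)
    (hL : LevelChangeFFStatement)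
    (N : ℕ) [NeZero N] (ℓ : ℕ) [Fact ℓ.Prime] (hℓN : ¬ ℓ ∣ N) (k : ℕ) :
    ∃ (H : Type) (_ : CommRing H) (_ : HopfAlgebra (GaloisRep.ratLocalizedAt ℓ) H),
      Module.Finite (GaloisRep.ratLocalizedAt ℓ) H ∧ Module.Flat (GaloisRep.ratLocalizedAt ℓ) H ∧
      Coalgebra.IsCocomm (GaloisRep.ratLocalizedAt ℓ) H ∧
      ∃ e : WithConv (H →ₐ[GaloisRep.ratLocalizedAt ℓ] AlgebraicClosure ℚ) ≃
          ↥(Submodule.torsionBy ℤ (JZero N) ((ℓ : ℤ) ^ k)),
        (∀ f g, e (f * g) = e f + e g) ∧
        ∀ (σ : AlgebraicClosure ℚ ≃ₐ[ℚ] AlgebraicClosure ℚ)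
          (f g : WithConv (H →ₐ[GaloisRep.ratLocalizedAt ℓ] AlgebraicClosure ℚ)),
          (∀ h : H, g h = σ (f h)) → ((e g : JZero N)) = σ • (e f : JZero N) :=
  s19_shape_of_s19At (s19At_of_tame (s19Tame_of_geo hG hfin hsm h3 h4) hL N ℓ hℓN k)

end Fermat.Agent.H72.FF
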