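/-
P-FF (S19), architect helper72: ASSEMBLY, second stage.  On top of `Assembly.lean` the following
landed blocks are plugged in (all unconditional):
* FF-TORS `Fermat.Agent.H83.FF.torsionFinite`, `Fermat.Agent.H83.FF.torsionSmooth` (helper83)
* T3      `Fermat.Agent.H17.ESD.genusFFTame`                                        (helper17)
* T4      `Fermat.Agent.H18.existsReductionTame_of_genus` (helper18): T4 follows from E6

Remaining inputs of `s19_of_heart`:
* `CoordDatumStatement` (the geometric heart; from FF-G6 + FF-G7 by `coordDatum_of_blocks`),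
* `Fermat.Agent.H18.GenusUncondTameStatement` (E6, P-ES),
* `LevelChangeFFStatement` (FF-LC).
-/
import Fermat.Agent.H72.FF.Assembly
import Fermat.Agent.H72.FF.GeoBlocks
import Fermat.Agent.H83.FF.Tors
import Fermat.Agent.H17.ESD.Tame23
import Fermat.Agent.H18.ExTame

set_option autoImplicit false
set_option synthInstance.maxHeartbeats 400000
set_option linter.style.haveILetI false

noncomputable section

open AlgebraicCurve ModularCurve

namespace Fermat.Agent.H72.FF

open Fermat.Agent.H10.FF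

/-- S19 at tame pairs from the geometric heart and E6. -/
theorem s19Tame_of_heart (hG : CoordDatumStatement)
    (hE6 : Fermat.Agent.H18.GenusUncondTameStatement) : S19TameStatement :=
  s19Tame_of_geo hG Fermat.Agent.H83.FF.torsionFinite Fermat.Agent.H83.FF.torsionSmooth
    Fermat.Agent.H17.ESD.genusFFTame (Fermat.Agent.H18.existsReductionTame_of_genus hE6)

/-- **S19 in the frozen shape**, from the three remaining inputs: the geometric heart, E6 and
the level change. -/
theorem s19_of_heart (hG : CoordDatumStatement)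
    (hE6 : Fermat.Agent.H18.GenusUncondTameStatement)
    (hL : LevelChangeFFStatement)
    (N : ℕ) [NeZero N] (ℓ : ℕ) [Fact ℓ.Prime] (hℓN : ¬ ℓ ∣ N) (k : ℕ) :
    ∃ (H : Type) (_ : CommRing H) (_ : HopfAlgebra (GaloisRep.ratLocalizedAt ℓ) H),
      Module.Finite (GaloisRep.ratLocalizedAt ℓ) H ∧ Module.Flat (GaloisRep.ratLocalizedAt ℓ) H ∧
      Coalgebra.IsCocomm (GaloisRep.ratLocalizedAt ℓ) H ∧
      ∃ e : WithConv (H →ₐ[GaloisRep.ratLocalizedAt ℓ] AlgebraicClosure ℚ) ≃
          ↥(Submodule.torsionBy ℤ (JZero N) ((ℓ : ℤ) ^ k)),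
        (∀ f g, e (f * g) = e f + e g) ∧
        ∀ (σ : AlgebraicClosure ℚ ≃ₐ[ℚ] AlgebraicClosure ℚ)
          (f g : WithConv (H →ₐ[GaloisRep.ratLocalizedAt ℓ] AlgebraicClosure ℚ)),
          (∀ h : H, g h = σ (f h)) → ((e g : JZero N)) = σ • (e f : JZero N) :=
  s19_of_geo hG Fermat.Agent.H83.FF.torsionFinite Fermat.Agent.H83.FF.torsionSmooth
    Fermat.Agent.H17.ESD.genusFFTame (Fermat.Agent.H18.existsReductionTame_of_genus hE6) hL
    N ℓ hℓN k

/-- **S19 in the frozen shape** from the two geometric blocks FF-G6, FF-G7, E6 and FF-LC. -/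
theorem s19_of_blocks (hJ : JacCoordStatement) (hAdd : AddApproxStatement)
    (hE6 : Fermat.Agent.H18.GenusUncondTameStatement)
    (hL : LevelChangeFFStatement)
    (N : ℕ) [NeZero N] (ℓ : ℕ) [Fact ℓ.Prime] (hℓN : ¬ ℓ ∣ N) (k : ℕ) :
    ∃ (H : Type) (_ : CommRing H) (_ : HopfAlgebra (GaloisRep.ratLocalizedAt ℓ) H),
      Module.Finite (GaloisRep.ratLocalizedAt ℓ) H ∧ Module.Flat (GaloisRep.ratLocalizedAt ℓ) H ∧
      Coalgebra.IsCocomm (GaloisRep.ratLocalizedAt ℓ) H ∧
      ∃ e : WithConv (H →ₐ[GaloisRep.ratLocalizedAt ℓ] AlgebraicClosure ℚ) ≃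
          ↥(Submodule.torsionBy ℤ (JZero N) ((ℓ : ℤ) ^ k)),
        (∀ f g, e (f * g) = e f + e g) ∧
        ∀ (σ : AlgebraicClosure ℚ ≃ₐ[ℚ] AlgebraicClosure ℚ)
          (f g : WithConv (H →ₐ[GaloisRep.ratLocalizedAt ℓ] AlgebraicClosure ℚ)),
          (∀ h : H, g h = σ (f h)) → ((e g : JZero N)) = σ • (e f : JZero N) :=
  s19_of_heart (coordDatum_of_blocks hJ hAdd) hE6 hL N ℓ hℓN k

end Fermat.Agent.H72.FF
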