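/-
P-FF (S19), architect helper72: ASSEMBLY, third stage.  On top of `Assembly2.lean` the following
landed blocks are plugged in:
* FF-LC  `Fermat.Agent.H10.FF.levelChangeFF`  (helper10, unconditional)
* FF-G1  `Fermat.Agent.H85.discEquiv`         (helper85, unconditional)
* FF-G2  `Fermat.Agent.H19.FF.unrCoord`       (helper19, from FF-G2')
* FF-G6  `Fermat.Agent.H56.FF.jacCoord`       (helper56, from FF-G1 + FF-G2)
* E6 for `ℓ ≥ 5`  `Fermat.Agent.H9.E6.genusUncondJ` (helper9, unconditional)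

Remaining inputs of `s19_of_three`:
* `UnrLiftingStatement` (FF-G2'),
* `AddApproxStatement` (FF-G7),
* `GenusUncond23Statement` (E6 at the two tame families with `ℓ ∈ {2, 3}`).
-/
import Fermat.Agent.H72.FF.Assembly2
import Fermat.Agent.H10.FF.LCFinal
import Fermat.Agent.H85.FFDisc
import Fermat.Agent.H19.FF.UnrCoord
import Fermat.Agent.H56.FF.JacCoord
import Fermat.Agent.H9.E6.GenusJ

set_option autoImplicit false
set_option synthInstance.maxHeartbeats 400000
set_option linter.style.haveILetI false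

noncomputable section

open AlgebraicCurve ModularCurve

namespace Fermat.Agent.H72.FF

open Fermat.Agent.H10.FF

/-- **E6 at the tame families with `ℓ ∈ {2, 3}`**: the unconditional genus inequality for
`ℓ = 3`, `2 ∣ N` (coordinate `t₂`) and for `ℓ = 2`, `3 ∣ N` (coordinate `t₃`). -/
def GenusUncond23Statement : Prop :=
  ∀ (N : ℕ) [NeZero N] (ℓ : ℕ) [Fact ℓ.Prime], ¬ ℓ ∣ N →
    ((ℓ = 3 ∧ 2 ∣ N) ∨ (ℓ = 2 ∧ 3 ∣ N)) →
    ∀ (A : ValuationSubring (AlgebraicClosure ℚ)), A.LiesOverPrime ℓ →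
      genusFF (AlgebraicClosure ℚ) ↥(modularFunctionFieldBar N) ≤
        genusFF (IsLocalRing.ResidueField A)
          ↥(modularFunctionFieldFullC (IsLocalRing.ResidueField A) N)

/-- E6 at all tame pairs from the landed case `ℓ ≥ 5` and the two families with `ℓ ∈ {2, 3}`. -/
theorem genusUncondTame_of_23 (h : GenusUncond23Statement) :
    Fermat.Agent.H18.GenusUncondTameStatement := by
  intro N _ ℓ _ hℓN ht A hA
  rcases ht with h5 | h23
  · exact Fermat.Agent.H9.E6.genusUncondJ N ℓ hℓN h5 A hA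
  · exact h N ℓ hℓN h23 A hA

/-- FF-G6 from FF-G2' alone. -/
theorem jacCoord_of_unrLifting (h : UnrLiftingStatement) : JacCoordStatement :=
  Fermat.Agent.H56.FF.jacCoord Fermat.Agent.H85.discEquiv (Fermat.Agent.H19.FF.unrCoord h)

/-- The geometric heart from FF-G2' and FF-G7. -/
theorem coordDatum_of_two (hLift : UnrLiftingStatement) (hAdd : AddApproxStatement) :
    CoordDatumStatement :=
  coordDatum_of_blocks (jacCoord_of_unrLifting hLift) hAdd

/-- **S19 in the frozen shape** from the three remaining inputs. -/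
theorem s19_of_three (hLift : UnrLiftingStatement) (hAdd : AddApproxStatement)
    (hE : GenusUncond23Statement)
    (N : ℕ) [NeZero N] (ℓ : ℕ) [Fact ℓ.Prime] (hℓN : ¬ ℓ ∣ N) (k : ℕ) :
    ∃ (H : Type) (_ : CommRing H) (_ : HopfAlgebra (GaloisRep.ratLocalizedAt ℓ) H),
      Module.Finite (GaloisRep.ratLocalizedAt ℓ) H ∧ Module.Flat (GaloisRep.ratLocalizedAt ℓ) H ∧
      Coalgebra.IsCocomm (GaloisRep.ratLocalizedAt ℓ) H ∧
      ∃ e : WithConv (H →ₐ[GaloisRep.ratLocalizedAt ℓ] AlgebraicClosure ℚ) ≃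
          ↥(Submodule.torsionBy ℤ (JZero N) ((ℓ : ℤ) ^ k)),
        (∀ f g, e (f * g) = e f + e g) ∧
        ∀ (σ : AlgebraicClosure ℚ ≃ₐ[ℚ] AlgebraicClosure ℚ)
          (f g : WithConv (H →ₐ[GaloisRep.ratLocalizedAt ℓ] AlgebraicClosure ℚ)),
          (∀ h : H, g h = σ (f h)) → ((e g : JZero N)) = σ • (e f : JZero N) :=
  s19_of_heart (coordDatum_of_two hLift hAdd) (genusUncondTame_of_23 hE)
    Fermat.Agent.H10.FF.levelChangeFF N ℓ hℓN k

/-- `S19At` for all `N`, `ℓ ∤ N`, `k` from the three remaining inputs (the form used by the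
S32 assembly). -/
theorem s19At_of_three (hLift : UnrLiftingStatement) (hAdd : AddApproxStatement)
    (hE : GenusUncond23Statement)
    (N : ℕ) [NeZero N] (ℓ : ℕ) [Fact ℓ.Prime] (hℓN : ¬ ℓ ∣ N) (k : ℕ) : S19At N ℓ k :=
  s19At_of_tame (s19Tame_of_heart (coordDatum_of_two hLift hAdd) (genusUncondTame_of_23 hE))
    Fermat.Agent.H10.FF.levelChangeFF N ℓ hℓN k

end Fermat.Agent.H72.FF
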