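/-
P-FF (S19), architect helper72: FINAL ASSEMBLY.  All inputs are landed and unconditional:
* FF-G2' `Fermat.Agent.H37.FF.unrLifting`      (helper37)
* FF-G7  `Fermat.Agent.H94.FF.addApprox`       (helper94 and the FF-G7 team)
* E6     `Fermat.Agent.H9.E6.genusUncondTame`  (helper9 and the E6 team)
* FF-LC  `Fermat.Agent.H10.FF.levelChangeFF`   (helper10)
together with the blocks plugged in by `Assembly`, `Assembly2`, `Assembly3`.

Results:
* `coordDatum_final : CoordDatumStatement` (the geometric heart),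
* `s19At_all : S19At N ℓ k` for all `N`, all primes `ℓ ∤ N`, all `k` (the form used by S32),
* `s19_final` : the frozen shape of S19.
-/
import Fermat.Agent.H72.FF.Assembly3
import Fermat.Agent.H94.FF.AddApprox
import Fermat.Agent.H9.E6.GenusTameFinal

set_option autoImplicit false
set_option synthInstance.maxHeartbeats 400000
set_option linter.style.haveILetI false

noncomputable section

open AlgebraicCurve ModularCurve

namespace Fermat.Agent.H72.FF

open Fermat.Agent.H10.FF

/-- **The geometric heart of P-FF**, unconditional. -/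
theorem coordDatum_final : CoordDatumStatement :=
  coordDatum_of_two Fermat.Agent.H37.FF.unrLifting Fermat.Agent.H94.FF.addApprox

/-- S19 at tame pairs, unconditional. -/
theorem s19Tame_final : S19TameStatement :=
  s19Tame_of_heart coordDatum_final Fermat.Agent.H9.E6.genusUncondTame

/-- **`J₀(N)[ℓᵏ]` has a Hopf model over `ℤ_(ℓ)`** for every `N`, every prime `ℓ ∤ N` and
every `k`. -/
theorem s19At_all (N : ℕ) [NeZero N] (ℓ : ℕ) [Fact ℓ.Prime] (hℓN : ¬ ℓ ∣ N) (k : ℕ) :
    S19At N ℓ k :=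
  s19At_of_tame s19Tame_final Fermat.Agent.H10.FF.levelChangeFF N ℓ hℓN k

/-- **S19 in the frozen shape.** -/
theorem s19_final (N : ℕ) [NeZero N] (ℓ : ℕ) [Fact ℓ.Prime] (hℓN : ¬ ℓ ∣ N) (k : ℕ) :
    ∃ (H : Type) (_ : CommRing H) (_ : HopfAlgebra (GaloisRep.ratLocalizedAt ℓ) H),
      Module.Finite (GaloisRep.ratLocalizedAt ℓ) H ∧ Module.Flat (GaloisRep.ratLocalizedAt ℓ) H ∧
      Coalgebra.IsCocomm (GaloisRep.ratLocalizedAt ℓ) H ∧
      ∃ e : WithConv (H →ₐ[GaloisRep.ratLocalizedAt ℓ] AlgebraicClosure ℚ) ≃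
          ↥(Submodule.torsionBy ℤ (JZero N) ((ℓ : ℤ) ^ k)),
        (∀ f g, e (f * g) = e f + e g) ∧
        ∀ (σ : AlgebraicClosure ℚ ≃ₐ[ℚ] AlgebraicClosure ℚ)
          (f g : WithConv (H →ₐ[GaloisRep.ratLocalizedAt ℓ] AlgebraicClosure ℚ)),
          (∀ h : H, g h = σ (f h)) → ((e g : JZero N)) = σ • (e f : JZero N) :=
  s19_shape_of_s19At (s19At_all N ℓ hℓN k)

end Fermat.Agent.H72.FF
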